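import Mathlib

set_option autoImplicit false

open NumberField Polynomial InfinitePlace Nat Real cyclotomic Module Ideal RingOfIntegers
  NumberField.Ideal IsCyclotomicExtension IsCyclotomicExtension.Rat

namespace Fermat.Agent.S10.PID

universe u

lemma lt_pow_orderOf {m p B : ℕ} (hm : 1 < m) (hcop : p.Coprime m)
    (hcheck : ∀ f < m, 0 < f → p ^ f % m = 1 → B < p ^ f) :
    B < p ^ orderOf (p : ZMod m) := by
  have : NeZero m := ⟨by omega⟩
  have : Fact (1 < m) := ⟨hm⟩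
  set u := ZMod.unitOfCoprime p hcop with hu
  have hou : orderOf (p : ZMod m) = orderOf u := by
    rw [← orderOf_units, hu, ZMod.coe_unitOfCoprime]
  have hpos : 0 < orderOf u := orderOf_pos u
  have hlt : orderOf u < m := by
    calc orderOf u ≤ Fintype.card (ZMod m)ˣ := orderOf_le_card_univ
      _ = m.totient := ZMod.card_units_eq_totient m
      _ < m := Nat.totient_lt m hm
  have hpow : (p : ZMod m) ^ orderOf u = 1 := by
    rw [← hou]; exact pow_orderOf_eq_one _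
  have hmod : p ^ orderOf u % m = 1 := by
    have h1 : ((p ^ orderOf u : ℕ) : ZMod m) = ((1 : ℕ) : ZMod m) := by
      push_cast; exact hpow
    rw [ZMod.natCast_eq_natCast_iff'] at h1
    rw [h1, Nat.mod_eq_of_lt hm]
  rw [hou]
  exact hcheck _ hlt hpos hmod

section seven

variable (K : Type u) [Field K] [NumberField K]

theorem seven_pid [IsCyclotomicExtension {7} ℚ K] : IsPrincipalIdealRing (𝓞 K) := by
  have : Fact (Nat.Prime 7) := ⟨by norm_num⟩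
  have hgal : IsGalois ℚ K := IsCyclotomicExtension.isGalois {7} ℚ K
  apply RingOfIntegers.isPrincipalIdealRing_of_isPrincipal_of_lt_or_isPrincipal_of_mem_primesOver_of_mem_Icc
  rw [IsCyclotomicExtension.Rat.discr_prime 7 K, IsCyclotomicExtension.finrank (n := 7) K
    (irreducible_rat (by simp)), IsCyclotomicExtension.Rat.nrComplexPlaces_eq_totient_div_two 7,
    totient_prime (by norm_num : Nat.Prime 7)]
  generalize hB : Nat.floor (_ : ℝ) = B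
  have hM : B ≤ 4 := by
    rw [← hB]
    apply Nat.le_of_lt_succ
    rw [Nat.floor_lt (by positivity)]
    have h1 : (4 / π) ^ 3 < (4 / 3.14) ^ 3 := by
      gcongr
      exact pi_gt_d2
    have h2 : √(16807 : ℝ) < 130 := by
      rw [Real.sqrt_lt' (by norm_num)]; norm_num
    have h3 : (0 : ℝ) < (4 / π) ^ 3 := by positivity
    have h4 : (0 : ℝ) ≤ √(16807 : ℝ) := Real.sqrt_nonneg _
    have key : (4 / π) ^ 3 * ((720 : ℝ) / 46656 * √(16807 : ℝ)) < 5 := by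
      calc (4 / π) ^ 3 * ((720 : ℝ) / 46656 * √(16807 : ℝ))
          ≤ (4 / 3.14) ^ 3 * ((720 : ℝ) / 46656 * 130) := by gcongr
        _ < 5 := by norm_num
    refine lt_of_eq_of_lt ?_ key
    norm_num [Nat.factorial]
  intro p hp hprime
  have hp4 : p ≤ 4 := (Finset.mem_Icc.mp hp).2.trans hM
  have : Fact p.Prime := ⟨hprime⟩
  obtain ⟨⟨P, hP1, hP2⟩⟩ := (span {(p : ℤ)}).nonempty_primesOver (S := 𝓞 K)
  refine ⟨P, ⟨hP1, hP2⟩, Or.inl ?_⟩
  have hp7 : ¬ p ∣ 7 := by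
    intro h
    have := (Nat.prime_dvd_prime_iff_eq hprime (by norm_num)).mp h
    omega
  rw [IsCyclotomicExtension.Rat.inertiaDeg_eq_of_not_dvd p K P hp7]
  refine lt_of_le_of_lt hM ?_
  apply lt_pow_orderOf (by norm_num) ((Nat.Prime.coprime_iff_not_dvd hprime).mpr (by
    intro h; have := Nat.le_of_dvd (by norm_num) h; omega))
  have hp2 : 2 ≤ p := hprime.two_le
  interval_cases p
  · decide
  · decide
  · exact absurd hprime (by norm_num)


end seven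

def okPair (p f : ℕ) : Bool :=
  f == 0 || decide (306 < p ^ f) || p ^ f % 13 != 1 || p == 3 || p == 53 || p == 79 || p == 131
    || p == 157 || decide (p ≤ 1) || [2, 3, 5, 7, 11, 13, 17].any (fun d => decide (d < p) && p % d == 0)

set_option maxRecDepth 100000 in
lemma check13 : ∀ p < 307, ∀ f < 13, okPair p f = true := by
  decide

lemma check13' {p f : ℕ} (hp : p.Prime) (hp306 : p ≤ 306) (hf : f < 13) (hf0 : 0 < f)
    (h3 : p ≠ 3) (h53 : p ≠ 53) (h79 : p ≠ 79) (h131 : p ≠ 131) (h157 : p ≠ 157)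
    (hmod : p ^ f % 13 = 1) : 306 < p ^ f := by
  have h := check13 p (by omega) f hf
  simp only [okPair, Bool.or_eq_true, beq_iff_eq, decide_eq_true_eq, bne_iff_ne, ne_eq,
    List.any_eq_true, Bool.and_eq_true] at h
  rcases h with (((((((((h | h) | h) | h) | h) | h) | h) | h) | h) | h)
  · omega
  · exact h
  · exact absurd hmod h
  · exact absurd h h3
  · exact absurd h h53
  · exact absurd h h79
  · exact absurd h h131
  · exact absurd h h157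
  · exact absurd hp.two_le (by omega)
  · obtain ⟨d, hd, hdp, hmod0⟩ := h
    have hdvd : d ∣ p := Nat.dvd_of_mod_eq_zero hmod0
    have := (Nat.dvd_prime hp).mp hdvd
    simp at hd
    omega


variable {K : Type u} [Field K] [NumberField K]

lemma minpoly_map_eq {m : ℕ} [NeZero m] [IsCyclotomicExtension {m} ℚ K] (p : ℕ) :
    map (Int.castRingHom (ZMod p)) (minpoly ℤ (zeta_spec m ℚ K).toInteger) =
      cyclotomic m (ZMod p) := by
  rw [← map_cyclotomic_int, cyclotomic_eq_minpoly (zeta_spec m ℚ K) (NeZero.pos _),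
    ← RingOfIntegers.minpoly_coe]
  rfl

lemma not_dvd_exponent {m : ℕ} [NeZero m] [IsCyclotomicExtension {m} ℚ K] (p : ℕ)
    [hp : Fact p.Prime] : ¬ p ∣ exponent (zeta_spec m ℚ K).toInteger := by
  rw [exponent_eq_one_iff.mpr <| adjoin_singleton_eq_top (zeta_spec m ℚ K)]
  exact hp.out.not_dvd_one

/-- A principal prime above `p` coming from a linear factor of the cyclotomic polynomial. -/
lemma exists_isPrincipal_of_linear {m : ℕ} [NeZero m] [IsCyclotomicExtension {m} ℚ K]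
    [hm : Fact m.Prime]
    (p : ℕ) [Fact p.Prime] (r : ℤ) (θ : 𝓞 K) (hθ : θ = (zeta_spec m ℚ K).toInteger)
    (hroot : (p : ℤ) ∣ ∑ i ∈ Finset.range m, r ^ i)
    (α β γ v : 𝓞 K) (u : ℤ)
    (h1 : (p : 𝓞 K) = α * β) (h2 : θ - (r : 𝓞 K) = α * γ)
    (h3 : α = (p : 𝓞 K) * u + (θ - r) * v) :
    ∃ P ∈ primesOver (span {(p : ℤ)}) (𝓞 K), Submodule.IsPrincipal P := by
  have hexp : ¬ p ∣ exponent θ := hθ ▸ not_dvd_exponent p
  have hroot' : (cyclotomic m (ZMod p)).IsRoot (r : ZMod p) := by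
    rw [cyclotomic_prime, IsRoot.def, eval_geom_sum]
    have := (ZMod.intCast_zmod_eq_zero_iff_dvd _ p).mpr hroot
    push_cast at this
    exact this
  have hQ : (X - C r : ℤ[X]).map (Int.castRingHom (ZMod p)) ∈ monicFactorsMod θ p := by
    rw [Multiset.mem_toFinset, Polynomial.mem_normalizedFactors_iff
      (map_monic_ne_zero (minpoly.monic θ.isIntegral)), hθ, minpoly_map_eq]
    have e : (X - C r : ℤ[X]).map (Int.castRingHom (ZMod p)) = X - C (r : ZMod p) := by simp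
    rw [e]
    exact ⟨irreducible_X_sub_C _, monic_X_sub_C _, dvd_iff_isRoot.mpr hroot'⟩
  have hprime := ((primesOverSpanEquivMonicFactorsMod hexp).symm ⟨_, hQ⟩).prop
  rw [primesOverSpanEquivMonicFactorsMod_symm_apply_eq_span hexp hQ] at hprime
  refine ⟨_, hprime, ?_⟩
  have hspan : span {(p : 𝓞 K), aeval θ (X - C r : ℤ[X])} = span {α} := by
    have e : aeval θ (X - C r : ℤ[X]) = θ - (r : 𝓞 K) := by simp
    rw [e]
    apply le_antisymm
    · rw [span_le]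
      rintro x (rfl | rfl)
      · exact mem_span_singleton.mpr ⟨β, h1⟩
      · exact mem_span_singleton.mpr ⟨γ, h2⟩
    · rw [span_singleton_le_iff_mem, h3]
      exact add_mem (mul_mem_right _ _ (subset_span (by simp)))
        (mul_mem_right _ _ (subset_span (by simp)))
  rw [hspan]
  exact ⟨⟨α, rfl⟩⟩


/-- A principal prime above `p` coming from an irreducible factor of the cyclotomic polynomial. -/
lemma exists_isPrincipal_of_factor {m : ℕ} [NeZero m] [IsCyclotomicExtension {m} ℚ K]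
    (p : ℕ) [Fact p.Prime] (Q : ℤ[X]) (θ : 𝓞 K) (hθ : θ = (zeta_spec m ℚ K).toInteger)
    (hirr : Irreducible (Q.map (Int.castRingHom (ZMod p))))
    (hmonic : (Q.map (Int.castRingHom (ZMod p))).Monic)
    (hdvd : Q.map (Int.castRingHom (ZMod p)) ∣ cyclotomic m (ZMod p))
    (α β γ u v : 𝓞 K)
    (h1 : (p : 𝓞 K) = α * β) (h2 : aeval θ Q = α * γ)
    (h3 : α = (p : 𝓞 K) * u + aeval θ Q * v) :
    ∃ P ∈ primesOver (span {(p : ℤ)}) (𝓞 K), Submodule.IsPrincipal P := by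
  have hexp : ¬ p ∣ exponent θ := hθ ▸ not_dvd_exponent p
  have hQ : Q.map (Int.castRingHom (ZMod p)) ∈ monicFactorsMod θ p := by
    rw [Multiset.mem_toFinset, Polynomial.mem_normalizedFactors_iff
      (map_monic_ne_zero (minpoly.monic θ.isIntegral)), hθ, minpoly_map_eq]
    exact ⟨hirr, hmonic, hdvd⟩
  have hprime := ((primesOverSpanEquivMonicFactorsMod hexp).symm ⟨_, hQ⟩).prop
  rw [primesOverSpanEquivMonicFactorsMod_symm_apply_eq_span hexp hQ] at hprime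
  refine ⟨_, hprime, ?_⟩
  have hspan : span {(p : 𝓞 K), aeval θ Q} = span {α} := by
    apply le_antisymm
    · rw [span_le]
      rintro x (rfl | rfl)
      · exact mem_span_singleton.mpr ⟨β, h1⟩
      · exact mem_span_singleton.mpr ⟨γ, h2⟩
    · rw [span_singleton_le_iff_mem, h3]
      exact add_mem (mul_mem_right _ _ (subset_span (by simp)))
        (mul_mem_right _ _ (subset_span (by simp)))
  rw [hspan]
  exact ⟨⟨α, rfl⟩⟩

lemma no_root_three : ∀ x : ZMod 3, ¬ x ^ 3 - (x + 1) = 0 := by decide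

section thirteen

variable [IsCyclotomicExtension {13} ℚ K]

lemma zeta_sum : ∃ ζ : 𝓞 K, ζ = (zeta_spec 13 ℚ K).toInteger ∧
    1 + ζ + ζ ^ 2 + ζ ^ 3 + ζ ^ 4 + ζ ^ 5 + ζ ^ 6 + ζ ^ 7 + ζ ^ 8 + ζ ^ 9 + ζ ^ 10 + ζ ^ 11
      + ζ ^ 12 = 0 := by
  refine ⟨_, rfl, ?_⟩
  have h := (zeta_spec 13 ℚ K).toInteger_isPrimitiveRoot.geom_sum_eq_zero (by norm_num)
  simp only [Finset.sum_range_succ, Finset.sum_range_zero, zero_add, pow_zero, pow_one] at h
  exact h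

lemma principal_53 : ∃ P ∈ primesOver (span {((53 : ℕ) : ℤ)}) (𝓞 K), Submodule.IsPrincipal P := by
  have : Fact (Nat.Prime 53) := ⟨by norm_num⟩
  have : Fact (Nat.Prime 13) := ⟨by norm_num⟩
  obtain ⟨ζ, hζ, hΦ⟩ := zeta_sum (K := K)
  refine exists_isPrincipal_of_linear (m := 13) 53 36 ζ hζ ?_
    (1 + ζ + ζ ^ 3)
    (1 - 24 * ζ - 35 * ζ ^ 2 - 25 * ζ ^ 3 - 10 * ζ ^ 4 - 14 * ζ ^ 5 - 20 * ζ ^ 6 - 29 * ζ ^ 7 - 16 * ζ ^ 8 - 23 * ζ ^ 9 - 7 * ζ ^ 10 - 36 * ζ ^ 11)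
    (17 * ζ + 24 * ζ ^ 2 + 17 * ζ ^ 3 + 7 * ζ ^ 4 + 10 * ζ ^ 5 + 14 * ζ ^ 6 + 20 * ζ ^ 7 + 11 * ζ ^ 8 + 16 * ζ ^ 9 + 5 * ζ ^ 10 + 25 * ζ ^ 11)
    (1297 + 36 * ζ + ζ ^ 2) (881) ?_ ?_ ?_
  · decide
  · push_cast
    linear_combination (52 - 29 * ζ + 36 * ζ ^ 2) * hΦ
  · push_cast
    linear_combination (-36 + 20 * ζ - 25 * ζ ^ 2) * hΦ
  · push_cast
    ring

lemma principal_79 : ∃ P ∈ primesOver (span {((79 : ℕ) : ℤ)}) (𝓞 K), Submodule.IsPrincipal P := by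
  have : Fact (Nat.Prime 79) := ⟨by norm_num⟩
  have : Fact (Nat.Prime 13) := ⟨by norm_num⟩
  obtain ⟨ζ, hζ, hΦ⟩ := zeta_sum (K := K)
  refine exists_isPrincipal_of_linear (m := 13) 79 64 ζ hζ ?_
    (1 + ζ - ζ ^ 4)
    (24 - 25 * ζ - 27 * ζ ^ 2 + 10 * ζ ^ 3 - 3 * ζ ^ 4 - 39 * ζ ^ 5 - 5 * ζ ^ 6 - 2 * ζ ^ 7 - 18 * ζ ^ 8 - 38 * ζ ^ 9 + 16 * ζ ^ 10 - 35 * ζ ^ 11)
    (-19 + 21 * ζ + 22 * ζ ^ 2 - 8 * ζ ^ 3 + 3 * ζ ^ 4 + 32 * ζ ^ 5 + 4 * ζ ^ 6 + 2 * ζ ^ 7 + 15 * ζ ^ 8 + 31 * ζ ^ 9 - 13 * ζ ^ 10 + 29 * ζ ^ 11)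
    (-262143 - 4096 * ζ - 64 * ζ ^ 2 - ζ ^ 3) (-212369) ?_ ?_ ?_
  · decide
  · push_cast
    linear_combination (55 - 54 * ζ + 51 * ζ ^ 2 - 35 * ζ ^ 3) * hΦ
  · push_cast
    linear_combination (-45 + 44 * ζ - 42 * ζ ^ 2 + 29 * ζ ^ 3) * hΦ
  · push_cast
    ring

lemma principal_131 : ∃ P ∈ primesOver (span {((131 : ℕ) : ℤ)}) (𝓞 K), Submodule.IsPrincipal P := by
  have : Fact (Nat.Prime 131) := ⟨by norm_num⟩
  have : Fact (Nat.Prime 13) := ⟨by norm_num⟩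
  obtain ⟨ζ, hζ, hΦ⟩ := zeta_sum (K := K)
  refine exists_isPrincipal_of_linear (m := 13) 131 80 ζ hζ ?_
    (1 - ζ - ζ ^ 3)
    (111 + 78 * ζ + 17 * ζ ^ 2 + 67 * ζ ^ 3 + 84 * ζ ^ 4 + 40 * ζ ^ 5 + 46 * ζ ^ 6 + 69 * ζ ^ 7 + 48 * ζ ^ 8 + 33 * ζ ^ 9 + 41 * ζ ^ 10 + 28 * ζ ^ 11)
    (-68 - 47 * ζ - 10 * ζ ^ 2 - 41 * ζ ^ 3 - 51 * ζ ^ 4 - 24 * ζ ^ 5 - 28 * ζ ^ 6 - 42 * ζ ^ 7 - 29 * ζ ^ 8 - 20 * ζ ^ 9 - 25 * ζ ^ 10 - 17 * ζ ^ 11)
    (-6401 - 80 * ζ - ζ ^ 2) (-3909) ?_ ?_ ?_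
  · decide
  · push_cast
    linear_combination (20 + 13 * ζ + 28 * ζ ^ 2) * hΦ
  · push_cast
    linear_combination (-12 - 8 * ζ - 17 * ζ ^ 2) * hΦ
  · push_cast
    ring

lemma principal_157 : ∃ P ∈ primesOver (span {((157 : ℕ) : ℤ)}) (𝓞 K), Submodule.IsPrincipal P := by
  have : Fact (Nat.Prime 157) := ⟨by norm_num⟩
  have : Fact (Nat.Prime 13) := ⟨by norm_num⟩
  obtain ⟨ζ, hζ, hΦ⟩ := zeta_sum (K := K)
  refine exists_isPrincipal_of_linear (m := 13) 157 75 ζ hζ ?_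
    (1 - ζ + ζ ^ 2 + ζ ^ 4)
    (89 + 86 * ζ + 42 * ζ ^ 2 + 77 * ζ ^ 3 + 67 * ζ ^ 4 + 25 * ζ ^ 5 + 37 * ζ ^ 6 + 56 * ζ ^ 7 + 73 * ζ ^ 8 + 113 * ζ ^ 9 + 124 * ζ ^ 10 + 76 * ζ ^ 11)
    (-43 - 41 * ζ - 20 * ζ ^ 2 - 37 * ζ ^ 3 - 32 * ζ ^ 4 - 12 * ζ ^ 5 - 18 * ζ ^ 6 - 27 * ζ ^ 7 - 35 * ζ ^ 8 - 54 * ζ ^ 9 - 59 * ζ ^ 10 - 36 * ζ ^ 11)
    (421949 + 5626 * ζ + 75 * ζ ^ 2 + ζ ^ 3) (201568) ?_ ?_ ?_
  · decide
  · push_cast
    linear_combination (68 - 65 * ζ - 48 * ζ ^ 2 - 76 * ζ ^ 3) * hΦ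
  · push_cast
    linear_combination (-32 + 31 * ζ + 23 * ζ ^ 2 + 36 * ζ ^ 3) * hΦ
  · push_cast
    ring

lemma principal_3 : ∃ P ∈ primesOver (span {((3 : ℕ) : ℤ)}) (𝓞 K), Submodule.IsPrincipal P := by
  have : Fact (Nat.Prime 3) := ⟨by norm_num⟩
  have : Fact (Nat.Prime 13) := ⟨by norm_num⟩
  obtain ⟨ζ, hζ, hΦ⟩ := zeta_sum (K := K)
  have e : (X ^ 3 - X - 1 : ℤ[X]).map (Int.castRingHom (ZMod 3)) = X ^ 3 - (X + 1) := by
    simp [sub_sub]
  have hdeg : (X ^ 3 - (X + 1) : (ZMod 3)[X]).natDegree = 3 := by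
    compute_degree!
  have h3 : (3 : (ZMod 3)[X]) = 0 := by
    have := CharP.cast_eq_zero ((ZMod 3)[X]) 3
    exact_mod_cast this
  refine exists_isPrincipal_of_factor (m := 13) 3 (X ^ 3 - X - 1) ζ hζ ?_ ?_ ?_
    (1 + ζ - ζ ^ 3)
    (-1 - ζ ^ 2 - ζ ^ 3 - 2 * ζ ^ 5 - ζ ^ 7 - 2 * ζ ^ 8 + ζ ^ 9 - 3 * ζ ^ 10)
    (-1) 0 (-1) ?_ ?_ ?_
  · rw [e]
    refine irreducible_of_degree_le_three_of_not_isRoot (by rw [hdeg]; decide) ?_
    intro x
    simp only [IsRoot.def, eval_sub, eval_pow, eval_X, eval_add, eval_one]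
    exact no_root_three x
  · rw [e]
    monicity!
  · rw [e, cyclotomic_prime]
    refine ⟨20 + 15 * X + 11 * X ^ 2 + 8 * X ^ 3 + 6 * X ^ 4 + 4 * X ^ 5 + 3 * X ^ 6 + 2 * X ^ 7
      + X ^ 8 + X ^ 9, ?_⟩
    simp only [Finset.sum_range_succ, Finset.sum_range_zero, zero_add, pow_zero, pow_one]
    linear_combination (7 + 12 * X + 9 * X ^ 2) * h3
  · push_cast
    linear_combination (4 - 3 * ζ) * hΦ
  · simp; ring
  · simp; ring


theorem thirteen_pid_aux : IsPrincipalIdealRing (𝓞 K) := by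
  have : Fact (Nat.Prime 13) := ⟨by norm_num⟩
  have hgal : IsGalois ℚ K := IsCyclotomicExtension.isGalois {13} ℚ K
  apply RingOfIntegers.isPrincipalIdealRing_of_isPrincipal_of_lt_or_isPrincipal_of_mem_primesOver_of_mem_Icc
  rw [IsCyclotomicExtension.Rat.discr_prime 13 K, IsCyclotomicExtension.finrank (n := 13) K
    (irreducible_rat (by simp)), IsCyclotomicExtension.Rat.nrComplexPlaces_eq_totient_div_two 13,
    totient_prime (by norm_num : Nat.Prime 13)]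
  generalize hB : Nat.floor (_ : ℝ) = B
  have hM : B ≤ 306 := by
    rw [← hB]
    apply Nat.le_of_lt_succ
    rw [Nat.floor_lt (by positivity)]
    have h1 : (4 / π) ^ 6 < (4 / 3.1415) ^ 6 := by
      gcongr
      exact pi_gt_d4
    have h2 : √(1792160394037 : ℝ) < 1338717 := by
      rw [Real.sqrt_lt' (by norm_num)]; norm_num
    have h3 : (0 : ℝ) < (4 / π) ^ 6 := by positivity
    have h4 : (0 : ℝ) ≤ √(1792160394037 : ℝ) := Real.sqrt_nonneg _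
    have key : (4 / π) ^ 6 * ((479001600 : ℝ) / 8916100448256 * √(1792160394037 : ℝ)) < 307 := by
      calc (4 / π) ^ 6 * ((479001600 : ℝ) / 8916100448256 * √(1792160394037 : ℝ))
          ≤ (4 / 3.1415) ^ 6 * ((479001600 : ℝ) / 8916100448256 * 1338717) := by gcongr
        _ < 307 := by norm_num
    refine lt_of_eq_of_lt ?_ key
    norm_num [Nat.factorial]
  intro p hp hprime
  have hp306 : p ≤ 306 := (Finset.mem_Icc.mp hp).2.trans hM
  have : Fact p.Prime := ⟨hprime⟩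
  by_cases h13 : p = 13
  · subst h13
    obtain ⟨⟨P, hP1, hP2⟩⟩ := (span {((13 : ℕ) : ℤ)}).nonempty_primesOver (S := 𝓞 K)
    refine ⟨P, ⟨hP1, hP2⟩, Or.inr ?_⟩
    rw [IsCyclotomicExtension.Rat.eq_span_zeta_sub_one_of_liesOver' 13 K (zeta_spec 13 ℚ K) P]
    exact ⟨⟨_, rfl⟩⟩
  by_cases h3 : p = 3
  · subst h3
    obtain ⟨P, hP, hpr⟩ := principal_3 (K := K)
    exact ⟨P, hP, Or.inr hpr⟩
  by_cases h53 : p = 53
  · subst h53
    obtain ⟨P, hP, hpr⟩ := principal_53 (K := K)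
    exact ⟨P, hP, Or.inr hpr⟩
  by_cases h79 : p = 79
  · subst h79
    obtain ⟨P, hP, hpr⟩ := principal_79 (K := K)
    exact ⟨P, hP, Or.inr hpr⟩
  by_cases h131 : p = 131
  · subst h131
    obtain ⟨P, hP, hpr⟩ := principal_131 (K := K)
    exact ⟨P, hP, Or.inr hpr⟩
  by_cases h157 : p = 157
  · subst h157
    obtain ⟨P, hP, hpr⟩ := principal_157 (K := K)
    exact ⟨P, hP, Or.inr hpr⟩
  obtain ⟨⟨P, hP1, hP2⟩⟩ := (span {(p : ℤ)}).nonempty_primesOver (S := 𝓞 K)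
  refine ⟨P, ⟨hP1, hP2⟩, Or.inl ?_⟩
  have hp13 : ¬ p ∣ 13 := by
    intro h
    exact h13 ((Nat.prime_dvd_prime_iff_eq hprime (by norm_num)).mp h)
  rw [IsCyclotomicExtension.Rat.inertiaDeg_eq_of_not_dvd p K P hp13]
  refine lt_of_le_of_lt hM ?_
  apply lt_pow_orderOf (by norm_num) ((Nat.Prime.coprime_iff_not_dvd hprime).mpr hp13)
  intro f hf hf0 hmod
  exact check13' hprime hp306 hf hf0 h3 h53 h79 h131 h157 hmod

end thirteen

theorem thirteen_pid (K : Type u) [Field K] [NumberField K] [IsCyclotomicExtension {13} ℚ K] :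
    IsPrincipalIdealRing (𝓞 K) := thirteen_pid_aux

end Fermat.Agent.S10.PID
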