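import Mathlib

set_option autoImplicit false

namespace Fermat.Agent.S10.SophieGermain

/-- The cofactor `(y^p + z^p)/(y+z)` for odd `p`. -/
def cof (p : ℕ) (y z : ℤ) : ℤ := ∑ i ∈ Finset.range p, y ^ i * (-z) ^ (p - 1 - i)

lemma cof_mul_add {p : ℕ} (hp : Odd p) (y z : ℤ) : cof p y z * (y + z) = y ^ p + z ^ p := by
  have h := geom_sum₂_mul y (-z) p
  rw [sub_neg_eq_add, hp.neg_pow, sub_neg_eq_add] at h
  exact h

lemma cof_modEq (p : ℕ) (y z : ℤ) : cof p y z ≡ p * y ^ (p - 1) [ZMOD (y + z)] := by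
  have h : (-z) ≡ y [ZMOD (y + z)] := by
    rw [Int.modEq_iff_dvd]
    exact ⟨1, by ring⟩
  unfold cof
  have key : ∀ i ∈ Finset.range p, y ^ i * (-z) ^ (p - 1 - i) ≡ y ^ (p - 1) [ZMOD (y + z)] := by
    intro i hi
    have hi' : i + (p - 1 - i) = p - 1 := by have := Finset.mem_range.mp hi; omega
    calc y ^ i * (-z) ^ (p - 1 - i) ≡ y ^ i * y ^ (p - 1 - i) [ZMOD (y + z)] :=
          (h.pow _).mul_left _
      _ = y ^ (p - 1) := by rw [← pow_add, hi']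
  calc ∑ i ∈ Finset.range p, y ^ i * (-z) ^ (p - 1 - i)
      ≡ ∑ _i ∈ Finset.range p, y ^ (p - 1) [ZMOD (y + z)] := Int.ModEq.sum key
    _ = p * y ^ (p - 1) := by simp

lemma cof_modEq_left {p : ℕ} (hp : 0 < p) (x y : ℤ) : cof p x y ≡ (-y) ^ (p - 1) [ZMOD x] := by
  obtain ⟨n, rfl⟩ : ∃ n, p = n + 1 := ⟨p - 1, by omega⟩
  unfold cof
  rw [Finset.sum_range_succ']
  simp only [pow_zero, one_mul, Nat.add_sub_cancel, Nat.sub_zero]
  have : x ∣ ∑ i ∈ Finset.range n, x ^ (i + 1) * (-y) ^ (n - (i + 1)) :=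
    Finset.dvd_sum fun i _ => Dvd.dvd.mul_right (dvd_pow_self x (Nat.succ_ne_zero i)) _
  rw [Int.modEq_iff_dvd]
  obtain ⟨k, hk⟩ := this
  exact ⟨-k, by rw [hk]; ring⟩

lemma exists_pow_eq {p : ℕ} (hp : p.Prime) (hp2 : p ≠ 2) {x y z : ℤ} (hyz : IsCoprime y z)
    (h : x ^ p + y ^ p + z ^ p = 0) (hx : ¬ (p : ℤ) ∣ x) :
    ∃ a α : ℤ, y + z = a ^ p ∧ cof p y z = α ^ p := by
  have hodd : Odd p := hp.odd_of_ne_two hp2
  have hprod : (y + z) * cof p y z = (-x) ^ p := by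
    rw [mul_comm, cof_mul_add hodd, hodd.neg_pow]; linarith
  have hpZ : Prime (p : ℤ) := Nat.prime_iff_prime_int.mp hp
  have hpyz : ¬ (p : ℤ) ∣ (y + z) := by
    intro hd
    have h3 : (p : ℤ) ∣ (-x) ^ p := hprod ▸ Dvd.dvd.mul_right hd _
    exact hx (dvd_neg.mp (hpZ.dvd_of_dvd_pow h3))
  have hcop1 : IsCoprime (y + z) (p : ℤ) :=
    (hpZ.irreducible.coprime_iff_not_dvd.mpr hpyz).symm
  have hcop2 : IsCoprime (y + z) y := by
    have h4 := hyz.symm.add_mul_left_left 1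
    rwa [mul_one, add_comm] at h4
  have hcop3 : IsCoprime (y + z) ((p : ℤ) * y ^ (p - 1)) := hcop1.mul_right hcop2.pow_right
  have hcop : IsCoprime (y + z) (cof p y z) := by
    obtain ⟨k, hk⟩ := (cof_modEq p y z).symm.dvd
    have h5 : cof p y z = (p : ℤ) * y ^ (p - 1) + (y + z) * k := by linarith
    rw [h5]
    exact hcop3.add_mul_left_right k
  obtain ⟨a, ha⟩ := Int.eq_pow_of_mul_eq_pow_odd_left hcop hodd hprod
  obtain ⟨α, hα⟩ := Int.eq_pow_of_mul_eq_pow_odd_right hcop hodd hprod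
  exact ⟨a, α, ha, hα⟩

lemma not_both_zero {q : ℕ} [Fact q.Prime] {x y : ℤ} (hxy : IsCoprime x y)
    (hx : (x : ZMod q) = 0) (hy : (y : ZMod q) = 0) : False := by
  obtain ⟨u, v, huv⟩ := hxy
  have h := congrArg (Int.cast : ℤ → ZMod q) huv
  push_cast at h
  rw [hx, hy] at h
  simp at h

theorem caseI_aux {p q : ℕ} (hp : p.Prime) (hp2 : p ≠ 2) [Fact q.Prime]
    (h1 : ∀ u v w : ZMod q, u ^ p + v ^ p + w ^ p = 0 → u * v * w = 0)
    (h2 : ∀ u : ZMod q, u ^ p ≠ (p : ZMod q))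
    {x y z : ℤ} (hxy : IsCoprime x y) (hyz : IsCoprime y z) (hzx : IsCoprime z x)
    (h : x ^ p + y ^ p + z ^ p = 0) (hpx : ¬ (p : ℤ) ∣ x) (hpy : ¬ (p : ℤ) ∣ y)
    (hpz : ¬ (p : ℤ) ∣ z) (hqx : (x : ZMod q) = 0) : False := by
  have hodd : Odd p := hp.odd_of_ne_two hp2
  obtain ⟨a, α, ha, hα⟩ := exists_pow_eq hp hp2 hyz h hpx
  obtain ⟨b, β, hb, -⟩ := exists_pow_eq hp hp2 hzx (by linarith : y ^ p + z ^ p + x ^ p = 0) hpy
  obtain ⟨c, γ, hc, hγ⟩ := exists_pow_eq hp hp2 hxy (by linarith : z ^ p + x ^ p + y ^ p = 0) hpz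
  have e1 : ((b : ZMod q)) ^ p + (c : ZMod q) ^ p + (-(a : ZMod q)) ^ p = 0 := by
    rw [hodd.neg_pow]
    have h3 : b ^ p + c ^ p - a ^ p = 2 * x := by rw [← ha, ← hb, ← hc]; ring
    have h4 := congrArg (Int.cast : ℤ → ZMod q) h3
    push_cast at h4
    rw [hqx, mul_zero] at h4
    rw [← h4]; ring
  have e2 := h1 _ _ _ e1
  have hy0 : (y : ZMod q) ≠ 0 := fun hy => not_both_zero hxy hqx hy
  rcases mul_eq_zero.mp e2 with e3 | e3
  · rcases mul_eq_zero.mp e3 with e4 | e4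
    · -- b = 0, so z + x = 0, so z = 0
      have h3 := congrArg (Int.cast : ℤ → ZMod q) hb
      push_cast at h3
      rw [e4, zero_pow hp.ne_zero, hqx, add_zero] at h3
      exact not_both_zero hzx h3 hqx
    · have h3 := congrArg (Int.cast : ℤ → ZMod q) hc
      push_cast at h3
      rw [e4, zero_pow hp.ne_zero, hqx, zero_add] at h3
      exact not_both_zero hxy hqx h3
  · -- a = 0
    have ha0 : (a : ZMod q) = 0 := neg_eq_zero.mp e3
    have hyz0 : ((y + z : ℤ) : ZMod q) = 0 := by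
      rw [ha]; push_cast; rw [ha0, zero_pow hp.ne_zero]
    have hqyz : (q : ℤ) ∣ y + z := (ZMod.intCast_zmod_eq_zero_iff_dvd _ _).mp hyz0
    have hqx' : (q : ℤ) ∣ x := (ZMod.intCast_zmod_eq_zero_iff_dvd _ _).mp hqx
    have f1 : ((cof p y z : ℤ) : ZMod q) = ((p * y ^ (p - 1) : ℤ) : ZMod q) :=
      (ZMod.intCast_eq_intCast_iff _ _ _).mpr ((cof_modEq p y z).of_dvd hqyz)
    have f2 : ((cof p x y : ℤ) : ZMod q) = (((-y) ^ (p - 1) : ℤ) : ZMod q) :=
      (ZMod.intCast_eq_intCast_iff _ _ _).mpr ((cof_modEq_left hp.pos x y).of_dvd hqx')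
    rw [hα] at f1
    rw [hγ] at f2
    push_cast at f1 f2
    have heven : Even (p - 1) := by
      obtain ⟨k, hk⟩ := hodd
      exact ⟨k, by omega⟩
    rw [heven.neg_pow] at f2
    have hγ0 : (γ : ZMod q) ≠ 0 := by
      intro h0
      rw [h0, zero_pow hp.ne_zero] at f2
      exact pow_ne_zero _ hy0 f2.symm
    apply h2 ((α : ZMod q) / (γ : ZMod q))
    rw [div_pow, f1, f2]
    field_simp

theorem caseI {p q : ℕ} (hp : p.Prime) (hp2 : p ≠ 2) (hq : q.Prime)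
    (h1 : ∀ u v w : ZMod q, u ^ p + v ^ p + w ^ p = 0 → u * v * w = 0)
    (h2 : ∀ u : ZMod q, u ^ p ≠ (p : ZMod q))
    {a b c : ℤ} (hab : IsCoprime a b) (h : a ^ p + b ^ p = c ^ p) : (p : ℤ) ∣ a * b * c := by
  have : Fact q.Prime := ⟨hq⟩
  have hodd : Odd p := hp.odd_of_ne_two hp2
  have hpZ : Prime (p : ℤ) := Nat.prime_iff_prime_int.mp hp
  by_contra hnd
  have hpa : ¬ (p : ℤ) ∣ a := fun hd => hnd (Dvd.dvd.mul_right (Dvd.dvd.mul_right hd b) c)
  have hpb : ¬ (p : ℤ) ∣ b := fun hd => hnd (Dvd.dvd.mul_right (Dvd.dvd.mul_left hd a) c)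
  have hpc : ¬ (p : ℤ) ∣ -c := fun hd => hnd (Dvd.dvd.mul_left (dvd_neg.mp hd) (a * b))
  have hbc : IsCoprime b (-c) := by
    have h3 : IsCoprime b (a ^ p + b * b ^ (p - 1)) :=
      (hab.symm.pow_right).add_mul_left_right _
    have h4 : a ^ p + b * b ^ (p - 1) = c ^ p := by
      rw [← pow_succ', Nat.sub_add_cancel hp.one_le]; exact h
    rw [h4] at h3
    exact ((IsCoprime.pow_right_iff hp.pos).mp h3).neg_right
  have hca : IsCoprime (-c) a := by
    have h3 : IsCoprime a (b ^ p + a * a ^ (p - 1)) :=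
      (hab.pow_right).add_mul_left_right _
    have h4 : b ^ p + a * a ^ (p - 1) = c ^ p := by
      rw [← pow_succ', Nat.sub_add_cancel hp.one_le, add_comm]; exact h
    rw [h4] at h3
    exact ((IsCoprime.pow_right_iff hp.pos).mp h3).neg_right.symm
  have heq : a ^ p + b ^ p + (-c) ^ p = 0 := by rw [hodd.neg_pow]; linarith
  have e1 : (a : ZMod q) ^ p + (b : ZMod q) ^ p + ((-c : ℤ) : ZMod q) ^ p = 0 := by
    have := congrArg (Int.cast : ℤ → ZMod q) heq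
    push_cast at this
    push_cast
    exact this
  rcases mul_eq_zero.mp (h1 _ _ _ e1) with e3 | e3
  · rcases mul_eq_zero.mp e3 with e4 | e4
    · exact caseI_aux hp hp2 h1 h2 hab hbc hca heq hpa hpb hpc e4
    · exact caseI_aux hp hp2 h1 h2 hbc hca hab (by linarith) hpb hpc hpa e4
  · exact caseI_aux hp hp2 h1 h2 hca hab hbc (by linarith) hpc hpa hpb e3


lemma h1_of_finset {p q : ℕ} (T : Finset (ZMod q))
    (hS : ∀ u : ZMod q, u ≠ 0 → u ^ p ∈ T)
    (hT : ∀ s ∈ T, ∀ t ∈ T, ∀ r ∈ T, s + t + r ≠ 0) :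
    ∀ u v w : ZMod q, u ^ p + v ^ p + w ^ p = 0 → u * v * w = 0 := by
  intro u v w h
  by_contra hne
  have hu : u ≠ 0 := fun h0 => hne (by rw [h0]; ring)
  have hv : v ≠ 0 := fun h0 => hne (by rw [h0]; ring)
  have hw : w ≠ 0 := fun h0 => hne (by rw [h0]; ring)
  exact hT _ (hS u hu) _ (hS v hv) _ (hS w hw) h

theorem caseI_five {a b c : ℤ} (hab : IsCoprime a b) (h : a ^ 5 + b ^ 5 = c ^ 5) :
    (5 : ℤ) ∣ a * b * c :=
  caseI (p := 5) (q := 11) (by norm_num) (by norm_num) (by norm_num)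
    (h1_of_finset {1, -1} (by decide) (by decide)) (by decide) hab h

theorem caseI_seven {a b c : ℤ} (hab : IsCoprime a b) (h : a ^ 7 + b ^ 7 = c ^ 7) :
    (7 : ℤ) ∣ a * b * c :=
  caseI (p := 7) (q := 29) (by norm_num) (by norm_num) (by norm_num)
    (h1_of_finset {1, -1, 12, 17} (by decide) (by decide)) (by decide) hab h

theorem caseI_eleven {a b c : ℤ} (hab : IsCoprime a b) (h : a ^ 11 + b ^ 11 = c ^ 11) :
    (11 : ℤ) ∣ a * b * c :=
  caseI (p := 11) (q := 23) (by norm_num) (by norm_num) (by norm_num)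
    (h1_of_finset {1, -1} (by decide) (by decide)) (by decide) hab h

set_option maxRecDepth 100000 in
theorem caseI_thirteen {a b c : ℤ} (hab : IsCoprime a b) (h : a ^ 13 + b ^ 13 = c ^ 13) :
    (13 : ℤ) ∣ a * b * c :=
  caseI (p := 13) (q := 53) (by norm_num) (by norm_num) (by norm_num)
    (h1_of_finset {1, -1, 23, 30} (by decide) (by decide)) (by decide) hab h

end Fermat.Agent.S10.SophieGermain
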