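import Mathlib
import Fermat.Agent.S11.Assembly
import Fermat.Agent.S10.PID
import Fermat.Agent.Lib.KummerInst
import Fermat.Agent.S10.SophieGermain

set_option autoImplicit false

namespace Fermat.Agent.S10.FLT

open NumberField

/-- Fermat's Last Theorem for exponent `5` over the integers. -/
theorem flt_five_int : FermatLastTheoremWith ℤ 5 := by
  have : Fact (Nat.Prime 5) := ⟨by norm_num⟩
  have : IsCyclotomicExtension {5} ℚ (CyclotomicField 5 ℚ) :=
    CyclotomicField.isCyclotomicExtension 5 ℚ
  exact Fermat.Agent.S11.Assembly.flt_of_parts (p := 5) (K := CyclotomicField 5 ℚ) (by norm_num)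
    (IsCyclotomicExtension.Rat.five_pid (CyclotomicField 5 ℚ))
    (fun u hu => Fermat.Agent.Lib.KummerInst.kummer_five u hu)
    (fun a b c hab h => Fermat.Agent.S10.SophieGermain.caseI_five hab h)

/-- Fermat's Last Theorem for exponent `7` over the integers. -/
theorem flt_seven_int : FermatLastTheoremWith ℤ 7 := by
  have : Fact (Nat.Prime 7) := ⟨by norm_num⟩
  have : IsCyclotomicExtension {7} ℚ (CyclotomicField 7 ℚ) :=
    CyclotomicField.isCyclotomicExtension 7 ℚ
  exact Fermat.Agent.S11.Assembly.flt_of_parts (p := 7) (K := CyclotomicField 7 ℚ) (by norm_num)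
    (Fermat.Agent.S10.PID.seven_pid (CyclotomicField 7 ℚ))
    (fun u hu => Fermat.Agent.Lib.KummerInst.kummer_seven u hu)
    (fun a b c hab h => Fermat.Agent.S10.SophieGermain.caseI_seven hab h)

/-- Fermat's Last Theorem for exponent `13` over the integers. -/
theorem flt_thirteen_int : FermatLastTheoremWith ℤ 13 := by
  have : Fact (Nat.Prime 13) := ⟨by norm_num⟩
  have : IsCyclotomicExtension {13} ℚ (CyclotomicField 13 ℚ) :=
    CyclotomicField.isCyclotomicExtension 13 ℚ
  exact Fermat.Agent.S11.Assembly.flt_of_parts (p := 13) (K := CyclotomicField 13 ℚ) (by norm_num)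
    (Fermat.Agent.S10.PID.thirteen_pid (CyclotomicField 13 ℚ))
    (fun u hu => Fermat.Agent.Lib.KummerInst.kummer_thirteen u hu)
    (fun a b c hab h => Fermat.Agent.S10.SophieGermain.caseI_thirteen hab h)

end Fermat.Agent.S10.FLT
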