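import Mathlib

namespace Fermat.Agent.S10.PID13

open NumberField Polynomial Ideal RingOfIntegers NumberField.Ideal

variable {K : Type*} [Field K] [NumberField K] [IsCyclotomicExtension {13} ℚ K]

lemma fact13 : Fact (Nat.Prime 13) := ⟨by norm_num⟩

lemma no_root_three : ∀ x : ZMod 3, ¬ (x ^ 3 - x - 1 = 0) := by decide

lemma three_eq_zero : (3 : ZMod 3) = 0 := by decide

variable (K) in
/-- The chosen primitive 13-th root of unity, as an algebraic integer. -/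
noncomputable abbrev zeta13 : 𝓞 K := (IsCyclotomicExtension.zeta_spec 13 ℚ K).toInteger

lemma zeta13_sum : 1 + zeta13 K + zeta13 K ^ 2 + zeta13 K ^ 3 + zeta13 K ^ 4 + zeta13 K ^ 5 +
    zeta13 K ^ 6 + zeta13 K ^ 7 + zeta13 K ^ 8 + zeta13 K ^ 9 + zeta13 K ^ 10 + zeta13 K ^ 11 +
    zeta13 K ^ 12 = 0 := by
  have h := (IsCyclotomicExtension.zeta_spec 13 ℚ K).toInteger_isPrimitiveRoot.geom_sum_eq_zero
    (by norm_num)
  simpa [Finset.sum_range_succ] using h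

lemma minpoly_zeta13 : minpoly ℤ (zeta13 K) = cyclotomic 13 ℤ := by
  rw [cyclotomic_eq_minpoly (IsCyclotomicExtension.zeta_spec 13 ℚ K) (by norm_num),
    ← RingOfIntegers.minpoly_coe]
  rfl

lemma not_dvd_exponent_zeta13 (q : ℕ) [Fact q.Prime] : ¬ q ∣ exponent (zeta13 K) := by
  rw [exponent_eq_one_iff.mpr
    (IsCyclotomicExtension.Rat.adjoin_singleton_eq_top (IsCyclotomicExtension.zeta_spec 13 ℚ K))]
  exact (Fact.out : q.Prime).not_dvd_one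

lemma mem_monicFactorsMod {q : ℕ} [Fact q.Prime] {Q : ℤ[X]} (hmonic : Q.Monic)
    (hirr : Irreducible (Q.map (Int.castRingHom (ZMod q))))
    (hdvd : Q.map (Int.castRingHom (ZMod q)) ∣ cyclotomic 13 (ZMod q)) :
    Q.map (Int.castRingHom (ZMod q)) ∈ monicFactorsMod (zeta13 K) q := by
  rw [Multiset.mem_toFinset, Polynomial.mem_normalizedFactors_iff
    (map_monic_ne_zero (minpoly.monic (zeta13 K).isIntegral))]
  refine ⟨hirr, hmonic.map _, ?_⟩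
  rw [minpoly_zeta13, map_cyclotomic_int]
  exact hdvd

theorem exists_principal {q : ℕ} [Fact q.Prime] {Q : ℤ[X]}
    (hQ : Q.map (Int.castRingHom (ZMod q)) ∈ monicFactorsMod (zeta13 K) q)
    {α : 𝓞 K} (h1 : α ∣ (q : 𝓞 K)) (h2 : α ∣ aeval (zeta13 K) Q)
    (h3 : α ∈ span {(q : 𝓞 K), aeval (zeta13 K) Q}) :
    ∃ P ∈ primesOver (span {(q : ℤ)}) (𝓞 K), Submodule.IsPrincipal P := by
  have hexp := not_dvd_exponent_zeta13 (K := K) q
  refine ⟨_, ((primesOverSpanEquivMonicFactorsMod hexp).symm ⟨_, hQ⟩).prop, ?_⟩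
  rw [primesOverSpanEquivMonicFactorsMod_symm_apply_eq_span hexp hQ]
  have : span {(q : 𝓞 K), aeval (zeta13 K) Q} = span {α} := by
    apply le_antisymm
    · rw [span_le]
      intro x hx
      simp only [Set.mem_insert_iff, Set.mem_singleton_iff] at hx
      rcases hx with rfl | rfl
      · exact mem_span_singleton.mpr h1
      · exact mem_span_singleton.mpr h2
    · rw [span_singleton_le_iff_mem]
      exact h3
  rw [this]
  exact ⟨⟨α, rfl⟩⟩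

/-- the split case: `Q = X - r`. -/
theorem exists_principal_linear {q : ℕ} [Fact q.Prime] (r : ℤ)
    (hroot : (cyclotomic 13 (ZMod q)).IsRoot (r : ZMod q))
    {α : 𝓞 K} (h1 : α ∣ (q : 𝓞 K)) (h2 : α ∣ zeta13 K - r)
    (h3 : α ∈ span {(q : 𝓞 K), zeta13 K - r}) :
    ∃ P ∈ primesOver (span {(q : ℤ)}) (𝓞 K), Submodule.IsPrincipal P := by
  have hmap : (X - C r : ℤ[X]).map (Int.castRingHom (ZMod q)) = X - C (r : ZMod q) := by
    simp
  have hQ : (X - C r : ℤ[X]).map (Int.castRingHom (ZMod q)) ∈ monicFactorsMod (zeta13 K) q := by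
    apply mem_monicFactorsMod (monic_X_sub_C r)
    · rw [hmap]; exact irreducible_X_sub_C _
    · rw [hmap, dvd_iff_isRoot]; exact hroot
  have haeval : aeval (zeta13 K) (X - C r : ℤ[X]) = zeta13 K - r := by simp
  exact exists_principal hQ h1 (haeval ▸ h2) (haeval ▸ h3)

lemma root_53 : (∑ i ∈ Finset.range 13, ((36 : ℤ) : ZMod 53) ^ i) = 0 := by decide

theorem principal_53 : ∃ P ∈ primesOver (span {((53 : ℕ) : ℤ)}) (𝓞 K), Submodule.IsPrincipal P := by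
  have : Fact (Nat.Prime 53) := ⟨by norm_num⟩
  have hζ := zeta13_sum (K := K)
  set ζ := zeta13 K with hζdef
  refine exists_principal_linear (K := K) (q := 53) 36 ?_ (α := 1 + ζ + ζ ^ 3) ?_ ?_ ?_
  · have := fact13
    rw [cyclotomic_prime, IsRoot, eval_finsetSum]
    simp only [eval_pow, eval_X]
    exact root_53
  · refine ⟨1 + (-24) * ζ + (-35) * ζ ^ 2 + (-25) * ζ ^ 3 + (-10) * ζ ^ 4 + (-14) * ζ ^ 5 + (-20) * ζ ^ 6 + (-29) * ζ ^ 7 + (-16) * ζ ^ 8 + (-23) * ζ ^ 9 + (-7) * ζ ^ 10 + (-36) * ζ ^ 11, ?_⟩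
    push_cast
    linear_combination (-((-52) + 29 * ζ + (-36) * ζ ^ 2)) * hζ
  · refine ⟨17 * ζ + 24 * ζ ^ 2 + 17 * ζ ^ 3 + 7 * ζ ^ 4 + 10 * ζ ^ 5 + 14 * ζ ^ 6 + 20 * ζ ^ 7 + 11 * ζ ^ 8 + 16 * ζ ^ 9 + 5 * ζ ^ 10 + 25 * ζ ^ 11, ?_⟩
    push_cast
    linear_combination (-(36 + (-20) * ζ + 25 * ζ ^ 2)) * hζ
  · rw [Ideal.mem_span_pair]
    refine ⟨881, 1297 + 36 * ζ + ζ ^ 2, ?_⟩
    push_cast
    ring

lemma root_79 : (∑ i ∈ Finset.range 13, ((64 : ℤ) : ZMod 79) ^ i) = 0 := by decide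

theorem principal_79 : ∃ P ∈ primesOver (span {((79 : ℕ) : ℤ)}) (𝓞 K), Submodule.IsPrincipal P := by
  have : Fact (Nat.Prime 79) := ⟨by norm_num⟩
  have hζ := zeta13_sum (K := K)
  set ζ := zeta13 K with hζdef
  refine exists_principal_linear (K := K) (q := 79) 64 ?_ (α := 1 + ζ + (-ζ ^ 4)) ?_ ?_ ?_
  · have := fact13
    rw [cyclotomic_prime, IsRoot, eval_finsetSum]
    simp only [eval_pow, eval_X]
    exact root_79
  · refine ⟨24 + (-25) * ζ + (-27) * ζ ^ 2 + 10 * ζ ^ 3 + (-3) * ζ ^ 4 + (-39) * ζ ^ 5 + (-5) * ζ ^ 6 + (-2) * ζ ^ 7 + (-18) * ζ ^ 8 + (-38) * ζ ^ 9 + 16 * ζ ^ 10 + (-35) * ζ ^ 11, ?_⟩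
    push_cast
    linear_combination (-((-55) + 54 * ζ + (-51) * ζ ^ 2 + 35 * ζ ^ 3)) * hζ
  · refine ⟨(-19) + 21 * ζ + 22 * ζ ^ 2 + (-8) * ζ ^ 3 + 3 * ζ ^ 4 + 32 * ζ ^ 5 + 4 * ζ ^ 6 + 2 * ζ ^ 7 + 15 * ζ ^ 8 + 31 * ζ ^ 9 + (-13) * ζ ^ 10 + 29 * ζ ^ 11, ?_⟩
    push_cast
    linear_combination (-(45 + (-44) * ζ + 42 * ζ ^ 2 + (-29) * ζ ^ 3)) * hζ
  · rw [Ideal.mem_span_pair]
    refine ⟨-212369, (-262143) + (-4096) * ζ + (-64) * ζ ^ 2 + (-ζ ^ 3), ?_⟩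
    push_cast
    ring

lemma root_131 : (∑ i ∈ Finset.range 13, ((80 : ℤ) : ZMod 131) ^ i) = 0 := by decide

theorem principal_131 : ∃ P ∈ primesOver (span {((131 : ℕ) : ℤ)}) (𝓞 K), Submodule.IsPrincipal P := by
  have : Fact (Nat.Prime 131) := ⟨by norm_num⟩
  have hζ := zeta13_sum (K := K)
  set ζ := zeta13 K with hζdef
  refine exists_principal_linear (K := K) (q := 131) 80 ?_ (α := 1 + (-ζ) + (-ζ ^ 3)) ?_ ?_ ?_
  · have := fact13
    rw [cyclotomic_prime, IsRoot, eval_finsetSum]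
    simp only [eval_pow, eval_X]
    exact root_131
  · refine ⟨111 + 78 * ζ + 17 * ζ ^ 2 + 67 * ζ ^ 3 + 84 * ζ ^ 4 + 40 * ζ ^ 5 + 46 * ζ ^ 6 + 69 * ζ ^ 7 + 48 * ζ ^ 8 + 33 * ζ ^ 9 + 41 * ζ ^ 10 + 28 * ζ ^ 11, ?_⟩
    push_cast
    linear_combination (-((-20) + (-13) * ζ + (-28) * ζ ^ 2)) * hζ
  · refine ⟨(-68) + (-47) * ζ + (-10) * ζ ^ 2 + (-41) * ζ ^ 3 + (-51) * ζ ^ 4 + (-24) * ζ ^ 5 + (-28) * ζ ^ 6 + (-42) * ζ ^ 7 + (-29) * ζ ^ 8 + (-20) * ζ ^ 9 + (-25) * ζ ^ 10 + (-17) * ζ ^ 11, ?_⟩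
    push_cast
    linear_combination (-(12 + 8 * ζ + 17 * ζ ^ 2)) * hζ
  · rw [Ideal.mem_span_pair]
    refine ⟨-3909, (-6401) + (-80) * ζ + (-ζ ^ 2), ?_⟩
    push_cast
    ring

lemma root_157 : (∑ i ∈ Finset.range 13, ((75 : ℤ) : ZMod 157) ^ i) = 0 := by decide

theorem principal_157 : ∃ P ∈ primesOver (span {((157 : ℕ) : ℤ)}) (𝓞 K), Submodule.IsPrincipal P := by
  have : Fact (Nat.Prime 157) := ⟨by norm_num⟩
  have hζ := zeta13_sum (K := K)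
  set ζ := zeta13 K with hζdef
  refine exists_principal_linear (K := K) (q := 157) 75 ?_ (α := 1 + (-ζ) + ζ ^ 2 + ζ ^ 4) ?_ ?_ ?_
  · have := fact13
    rw [cyclotomic_prime, IsRoot, eval_finsetSum]
    simp only [eval_pow, eval_X]
    exact root_157
  · refine ⟨89 + 86 * ζ + 42 * ζ ^ 2 + 77 * ζ ^ 3 + 67 * ζ ^ 4 + 25 * ζ ^ 5 + 37 * ζ ^ 6 + 56 * ζ ^ 7 + 73 * ζ ^ 8 + 113 * ζ ^ 9 + 124 * ζ ^ 10 + 76 * ζ ^ 11, ?_⟩
    push_cast
    linear_combination (-((-68) + 65 * ζ + 48 * ζ ^ 2 + 76 * ζ ^ 3)) * hζ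
  · refine ⟨(-43) + (-41) * ζ + (-20) * ζ ^ 2 + (-37) * ζ ^ 3 + (-32) * ζ ^ 4 + (-12) * ζ ^ 5 + (-18) * ζ ^ 6 + (-27) * ζ ^ 7 + (-35) * ζ ^ 8 + (-54) * ζ ^ 9 + (-59) * ζ ^ 10 + (-36) * ζ ^ 11, ?_⟩
    push_cast
    linear_combination (-(32 + (-31) * ζ + (-23) * ζ ^ 2 + (-36) * ζ ^ 3)) * hζ
  · rw [Ideal.mem_span_pair]
    refine ⟨201568, 421949 + 5626 * ζ + 75 * ζ ^ 2 + ζ ^ 3, ?_⟩
    push_cast
    ring

theorem principal_3 : ∃ P ∈ primesOver (span {((3 : ℕ) : ℤ)}) (𝓞 K), Submodule.IsPrincipal P := by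
  have : Fact (Nat.Prime 3) := ⟨by norm_num⟩
  have hζ := zeta13_sum (K := K)
  set ζ := zeta13 K with hζdef
  have hmap : (X ^ 3 - X - 1 : ℤ[X]).map (Int.castRingHom (ZMod 3)) = X ^ 3 - X - 1 := by
    simp
  have hQ : (X ^ 3 - X - 1 : ℤ[X]).map (Int.castRingHom (ZMod 3)) ∈ monicFactorsMod (zeta13 K) 3 := by
    apply mem_monicFactorsMod (by monicity!)
    · rw [hmap]
      apply irreducible_of_degree_le_three_of_not_isRoot
      · have : (X ^ 3 - X - 1 : (ZMod 3)[X]).natDegree = 3 := by compute_degree!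
        rw [this]; decide
      · intro x
        simp only [IsRoot, eval_sub, eval_pow, eval_X, eval_one]
        exact no_root_three x
    · have hid : cyclotomic 13 ℤ = (X ^ 3 - X - 1) * (20 + 15 * X + 11 * X ^ 2 + 8 * X ^ 3 + 6 * X ^ 4 + 4 * X ^ 5 + 3 * X ^ 6 + 2 * X ^ 7 + X ^ 8 + X ^ 9) + 3 * (7 + 12 * X + 9 * X ^ 2) := by
        have := fact13
        rw [cyclotomic_prime]
        simp only [Finset.sum_range_succ, Finset.sum_range_zero]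
        ring
      rw [← map_cyclotomic_int 13 (ZMod 3), hid, hmap]
      refine ⟨(20 + 15 * X + 11 * X ^ 2 + 8 * X ^ 3 + 6 * X ^ 4 + 4 * X ^ 5 + 3 * X ^ 6 + 2 * X ^ 7 + X ^ 8 + X ^ 9 : ℤ[X]).map (Int.castRingHom (ZMod 3)), ?_⟩
      have h3 : (3 : (ZMod 3)[X]) = 0 := by
        rw [← C_ofNat]; exact C_eq_zero.mpr three_eq_zero
      simp only [Polynomial.map_add, Polynomial.map_mul, hmap, Polynomial.map_ofNat, h3, zero_mul, add_zero]
  have haeval : aeval (zeta13 K) (X ^ 3 - X - 1 : ℤ[X]) = ζ ^ 3 - ζ - 1 := by simp [hζdef]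
  refine exists_principal (K := K) (q := 3) hQ (α := 1 + ζ + (-ζ ^ 3)) ?_ ?_ ?_
  · refine ⟨(-1) + (-ζ ^ 2) + (-ζ ^ 3) + (-2) * ζ ^ 5 + (-ζ ^ 7) + (-2) * ζ ^ 8 + ζ ^ 9 + (-3) * ζ ^ 10, ?_⟩
    push_cast
    linear_combination (-((-4) + 3 * ζ)) * hζ
  · rw [haeval]
    exact ⟨-1, by ring⟩
  · rw [haeval, Ideal.mem_span_pair]
    exact ⟨0, -1, by ring⟩

lemma pow_orderOf_gt {p : ℕ} (hp : p.Prime) (hle : p ≤ 307)
    (h3 : p ≠ 3) (h13 : p ≠ 13) (h53 : p ≠ 53) (h79 : p ≠ 79) (h131 : p ≠ 131) (h157 : p ≠ 157) :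
    307 < p ^ orderOf (p : ZMod 13) := by
  have := fact13
  have hcop : ¬ 13 ∣ p := fun h => h13 (((Nat.prime_dvd_prime_iff_eq (by norm_num) hp).mp h).symm)
  have hne : (p : ZMod 13) ≠ 0 := by
    rwa [Ne, ZMod.natCast_eq_zero_iff]
  have h12 : (p : ZMod 13) ^ 12 = 1 := ZMod.pow_card_sub_one_eq_one hne
  have hfd : orderOf (p : ZMod 13) ∣ 12 := orderOf_dvd_of_pow_eq_one h12
  have hf1 : (p : ZMod 13) ^ orderOf (p : ZMod 13) = 1 := pow_orderOf_eq_one _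
  generalize orderOf (p : ZMod 13) = f at hfd hf1 ⊢
  have hfpos : 0 < f := Nat.pos_of_dvd_of_pos hfd (by norm_num)
  by_contra hlt
  rw [not_lt] at hlt
  have hN : p ^ f % 13 = 1 := by
    have := (ZMod.natCast_eq_natCast_iff' (p ^ f) 1 13).mp (by push_cast; exact hf1)
    simpa using this
  have hf8 : f ≤ 8 := by
    by_contra h
    rw [not_le] at h
    have h1 : 2 ^ 9 ≤ p ^ 9 := Nat.pow_le_pow_left hp.two_le 9
    have h2 : p ^ 9 ≤ p ^ f := Nat.pow_le_pow_right hp.pos h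
    omega
  have h2p := hp.two_le
  interval_cases f
  · -- f = 1
    rw [pow_one] at hN
    obtain ⟨k, rfl⟩ : ∃ k, p = 13 * k + 1 := ⟨p / 13, by omega⟩
    have hk : k ≤ 23 := by omega
    interval_cases k <;> first | omega | (norm_num at hp)
  · -- f = 2
    have hp17 : p ≤ 17 := by
      by_contra h
      rw [not_le] at h
      have : 18 ^ 2 ≤ p ^ 2 := Nat.pow_le_pow_left h 2
      omega
    interval_cases p <;> first | omega | (norm_num at hp)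
  · -- f = 3
    have hp6 : p ≤ 6 := by
      by_contra h
      rw [not_le] at h
      have : 7 ^ 3 ≤ p ^ 3 := Nat.pow_le_pow_left h 3
      omega
    interval_cases p <;> omega
  · -- f = 4
    have hp4 : p ≤ 4 := by
      by_contra h
      rw [not_le] at h
      have : 5 ^ 4 ≤ p ^ 4 := Nat.pow_le_pow_left h 4
      omega
    interval_cases p <;> omega
  · omega
  · -- f = 6
    have hp2 : p ≤ 2 := by
      by_contra h
      rw [not_le] at h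
      have : 3 ^ 6 ≤ p ^ 6 := Nat.pow_le_pow_left h 6
      omega
    interval_cases p
    omega
  · omega
  · omega

lemma minkowski_floor_le : ⌊(4 / Real.pi) ^ InfinitePlace.nrComplexPlaces K *
    (((Module.finrank ℚ K).factorial : ℝ) / (Module.finrank ℚ K : ℝ) ^ Module.finrank ℚ K *
      √|(NumberField.discr K : ℝ)|)⌋₊ ≤ 307 := by
  have := fact13
  rw [IsCyclotomicExtension.Rat.discr_prime 13 K, IsCyclotomicExtension.Rat.finrank 13 K,
    IsCyclotomicExtension.Rat.nrComplexPlaces_eq_totient_div_two 13, Nat.totient_prime this.out]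
  apply Nat.le_of_lt_succ
  rw [Nat.floor_lt (by positivity)]
  have hpi : (4 : ℝ) / Real.pi ≤ 4 / 3.1415 :=
    div_le_div_of_nonneg_left (by norm_num) (by norm_num) Real.pi_gt_d4.le
  have hpow : (4 / Real.pi) ^ 6 ≤ (4 / 3.1415 : ℝ) ^ 6 :=
    pow_le_pow_left₀ (by positivity) hpi 6
  have e1 : (13 - 1) / 2 = 6 := by norm_num
  have e2 : 13 - 1 = 12 := by norm_num
  have e3 : 13 - 2 = 11 := by norm_num
  have hfac : ((12 : ℕ).factorial : ℝ) = 479001600 := by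
    norm_num [Nat.factorial]
  rw [e1, e2, e3, hfac]
  have hsqrt : √|(((-1) ^ 6 * ((13 : ℕ) : ℤ) ^ 11 : ℤ) : ℝ)| ≤ 1338716 := by
    rw [Real.sqrt_le_left (by norm_num)]
    norm_num
  have h12 : ((12 : ℕ) : ℝ) = 12 := by norm_num
  rw [h12]
  calc (4 / Real.pi) ^ 6 * ((479001600 : ℝ) / 12 ^ 12 *
        √|(((-1) ^ 6 * ((13 : ℕ) : ℤ) ^ 11 : ℤ) : ℝ)|)
      ≤ (4 / 3.1415 : ℝ) ^ 6 * ((479001600 : ℝ) / 12 ^ 12 * 1338716) := by
        gcongr
    _ < ((307 : ℕ).succ : ℝ) := by norm_num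

theorem pid_thirteen : IsPrincipalIdealRing (𝓞 K) := by
  have := fact13
  have : IsGalois ℚ K := IsCyclotomicExtension.isGalois {13} ℚ K
  apply RingOfIntegers.isPrincipalIdealRing_of_isPrincipal_of_lt_or_isPrincipal_of_mem_primesOver_of_mem_Icc
  intro p hpmem hp
  have hM := minkowski_floor_le (K := K)
  have hp307 : p ≤ 307 := (Finset.mem_Icc.mp hpmem).2.trans hM
  by_cases h3 : p = 3
  · subst h3
    obtain ⟨P, hP, hprinc⟩ := principal_3 (K := K)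
    exact ⟨P, hP, Or.inr hprinc⟩
  by_cases h53 : p = 53
  · subst h53
    obtain ⟨P, hP, hprinc⟩ := principal_53 (K := K)
    exact ⟨P, hP, Or.inr hprinc⟩
  by_cases h79 : p = 79
  · subst h79
    obtain ⟨P, hP, hprinc⟩ := principal_79 (K := K)
    exact ⟨P, hP, Or.inr hprinc⟩
  by_cases h131 : p = 131
  · subst h131
    obtain ⟨P, hP, hprinc⟩ := principal_131 (K := K)
    exact ⟨P, hP, Or.inr hprinc⟩
  by_cases h157 : p = 157
  · subst h157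
    obtain ⟨P, hP, hprinc⟩ := principal_157 (K := K)
    exact ⟨P, hP, Or.inr hprinc⟩
  have : Fact p.Prime := ⟨hp⟩
  obtain ⟨⟨P, hP1, hP2⟩⟩ := (span {(p : ℤ)}).nonempty_primesOver (S := 𝓞 K)
  refine ⟨P, ⟨hP1, hP2⟩, ?_⟩
  by_cases h13 : p = 13
  · subst h13
    right
    rw [IsCyclotomicExtension.Rat.eq_span_zeta_sub_one_of_liesOver' 13 K
      (IsCyclotomicExtension.zeta_spec 13 ℚ K) P]
    exact ⟨⟨_, rfl⟩⟩
  · left
    have hnd : ¬ p ∣ 13 := fun h => h13 ((Nat.prime_dvd_prime_iff_eq hp (by norm_num)).mp h)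
    rw [IsCyclotomicExtension.Rat.inertiaDeg_eq_of_not_dvd p K P hnd]
    exact lt_of_le_of_lt hM (pow_orderOf_gt hp hp307 h3 h13 h53 h79 h131 h157)

end Fermat.Agent.S10.PID13
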