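import Mathlib

set_option autoImplicit false

namespace Fermat.Agent.S10.PrimeCert

open NumberField Polynomial

/-- Certificate lemma: in the ring of integers `ℤ[θ]` of the `n`-th cyclotomic field, if `g` is a
monic integer polynomial whose reduction mod `q` is an irreducible factor of the cyclotomic
polynomial mod `q`, then `span {q, g(θ)}` is a prime over `q`; if moreover `α` divides both `q`
and `g(θ)` and lies in that ideal, the prime is principal (generated by `α`). -/
theorem exists_isPrincipal_primesOver {n : ℕ} [NeZero n] {K : Type*} [Field K] [NumberField K]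
    [IsCyclotomicExtension {n} ℚ K] {ζ : K} (hζ : IsPrimitiveRoot ζ n)
    (q : ℕ) [hq : Fact q.Prime]
    (g : ℤ[X]) (hg : g.Monic)
    (hirr : Irreducible (g.map (Int.castRingHom (ZMod q))))
    (hdvd : g.map (Int.castRingHom (ZMod q)) ∣ (cyclotomic n ℤ).map (Int.castRingHom (ZMod q)))
    (α β γ : 𝓞 K) (hβ : α * β = (q : 𝓞 K)) (hγ : α * γ = aeval hζ.toInteger g)
    (hα : α ∈ Ideal.span {(q : 𝓞 K), aeval hζ.toInteger g}) :
    ∃ P ∈ (Ideal.span {(q : ℤ)}).primesOver (𝓞 K), Submodule.IsPrincipal P := by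
  classical
  set θ : 𝓞 K := hζ.toInteger with hθ
  set gbar : (ZMod q)[X] := g.map (Int.castRingHom (ZMod q)) with hgbar
  have : Fact (Irreducible gbar) := ⟨hirr⟩
  set r : AdjoinRoot gbar := AdjoinRoot.root gbar with hr_def
  have h_aeval_r : ∀ A : ℤ[X],
      aeval r A = AdjoinRoot.mk gbar (A.map (Int.castRingHom (ZMod q))) := by
    intro A
    rw [← AdjoinRoot.aeval_eq]
    exact (aeval_map_algebraMap (ZMod q) r A).symm
  have hminpoly : minpoly ℤ hζ.integralPowerBasis.gen = cyclotomic n ℤ := by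
    rw [hζ.integralPowerBasis_gen, ← RingOfIntegers.minpoly_coe]
    exact (cyclotomic_eq_minpoly hζ (NeZero.pos n)).symm
  have hr : aeval r (minpoly ℤ hζ.integralPowerBasis.gen) = 0 := by
    rw [hminpoly, h_aeval_r, AdjoinRoot.mk_eq_zero]
    exact hdvd
  set ψ : 𝓞 K →ₐ[ℤ] AdjoinRoot gbar := hζ.integralPowerBasis.lift r hr with hψ_def
  have hψθ : ψ θ = r := by
    have := hζ.integralPowerBasis.lift_gen r hr
    rwa [hζ.integralPowerBasis_gen] at this
  have hψ_aeval : ∀ A : ℤ[X], ψ (aeval θ A) = aeval r A := by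
    intro A
    rw [← aeval_algHom_apply, hψθ]
  -- the kernel
  set P : Ideal (𝓞 K) := RingHom.ker (ψ : 𝓞 K →+* AdjoinRoot gbar) with hP
  have hPprime : P.IsPrime := RingHom.ker_isPrime _
  have hqP : (q : 𝓞 K) ∈ P := by
    rw [hP, RingHom.mem_ker]
    have h1 : ((ψ : 𝓞 K →+* AdjoinRoot gbar) (q : 𝓞 K)) = (q : AdjoinRoot gbar) := map_natCast _ q
    rw [h1]
    have h2 : (q : AdjoinRoot gbar) = algebraMap (ZMod q) (AdjoinRoot gbar) (q : ZMod q) :=
      (map_natCast _ q).symm
    rw [h2, ZMod.natCast_self, map_zero]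
  have hgP : aeval θ g ∈ P := by
    rw [hP, RingHom.mem_ker]
    show ψ (aeval θ g) = 0
    rw [hψ_aeval, h_aeval_r, AdjoinRoot.mk_eq_zero]
  have hle : Ideal.span {(q : 𝓞 K), aeval θ g} ≤ P := by
    rw [Ideal.span_le]
    rintro x (rfl | rfl)
    · exact hqP
    · exact hgP
  have hge : P ≤ Ideal.span {(q : 𝓞 K), aeval θ g} := by
    intro x hx
    have hxtop : x ∈ (⊤ : Subalgebra ℤ (𝓞 K)) := Algebra.mem_top
    rw [← IsCyclotomicExtension.Rat.adjoin_singleton_eq_top hζ,
      Algebra.adjoin_singleton_eq_range_aeval] at hxtop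
    obtain ⟨A, rfl⟩ := hxtop
    rw [hP, RingHom.mem_ker] at hx
    have hx' : ψ (aeval θ A) = 0 := hx
    rw [hψ_aeval] at hx'
    have hdecomp := modByMonic_add_div A g
    have hx2 : aeval r (A %ₘ g) = 0 := by
      have h3 : aeval r A = aeval r (A %ₘ g) + aeval r g * aeval r (A /ₘ g) := by
        conv_lhs => rw [← hdecomp]
        simp
      have h4 : aeval r g = 0 := by rw [h_aeval_r, AdjoinRoot.mk_eq_zero]
      rw [h4, zero_mul, add_zero] at h3
      rw [← h3]; exact hx'
    rw [h_aeval_r, AdjoinRoot.mk_eq_zero] at hx2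
    have hdeg : ((A %ₘ g).map (Int.castRingHom (ZMod q))).degree < gbar.degree := by
      calc ((A %ₘ g).map (Int.castRingHom (ZMod q))).degree ≤ (A %ₘ g).degree := degree_map_le
        _ < g.degree := degree_modByMonic_lt A hg
        _ = gbar.degree := (hg.degree_map _).symm
    have hzero := eq_zero_of_dvd_of_degree_lt hx2 hdeg
    have hC : C (q : ℤ) ∣ A %ₘ g := by
      rw [C_dvd_iff_dvd_coeff]
      intro i
      have hi : ((A %ₘ g).map (Int.castRingHom (ZMod q))).coeff i = 0 := by rw [hzero]; simp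
      rw [coeff_map] at hi
      exact (ZMod.intCast_zmod_eq_zero_iff_dvd _ q).mp hi
    obtain ⟨R', hR'⟩ := hC
    rw [Ideal.mem_span_pair]
    refine ⟨aeval θ R', aeval θ (A /ₘ g), ?_⟩
    conv_rhs => rw [← hdecomp, hR']
    simp [mul_comm]
    rfl
  have hPeq : P = Ideal.span {(q : 𝓞 K), aeval θ g} := le_antisymm hge hle
  have hPα : P = Ideal.span {α} := by
    apply le_antisymm
    · rw [hPeq, Ideal.span_le]
      rintro x (rfl | rfl)
      · exact Ideal.mem_span_singleton.mpr ⟨β, hβ.symm⟩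
      · exact Ideal.mem_span_singleton.mpr ⟨γ, hγ.symm⟩
    · rw [Ideal.span_singleton_le_iff_mem, hPeq]
      exact hα
  refine ⟨P, ⟨hPprime, ?_⟩, ⟨α, by rw [hPα]⟩⟩
  rw [Ideal.liesOver_iff]
  have hqprime : Prime (q : ℤ) := Nat.prime_iff_prime_int.mp hq.out
  have hmax : (Ideal.span {(q : ℤ)}).IsMaximal :=
    PrincipalIdealRing.isMaximal_of_irreducible hqprime.irreducible
  refine hmax.eq_of_le ?_ ?_
  · intro h
    have h1 : (1 : ℤ) ∈ Ideal.under ℤ P := by rw [h]; trivial
    rw [Ideal.under_def, Ideal.mem_comap, map_one] at h1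
    exact hPprime.ne_top ((Ideal.eq_top_iff_one P).mpr h1)
  · rw [Ideal.span_singleton_le_iff_mem, Ideal.under_def, Ideal.mem_comap]
    simpa using hqP

end Fermat.Agent.S10.PrimeCert
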